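import Mathlib
import Fermat.Agent.EC.Good.Main

/-!
# MOONSHOT S52 (#1435), block K4 (congruence), part 1: Cayley–Hamilton for Frobenius on the
prime-to-`l` torsion of `E(ℚ̄)`

* `FrobCharEq` : the finite-field input (block HW): for a finite field `F`, an algebraically closed
  extension `k`, `W` over `F` with `Δ ≠ 0` : `π² Q + #F • Q = (#F + 1 - #W(F)) • π Q` for every
  `Q ∈ W(k)` (universe `0`, vocabulary of `LR/RedFrobCount`, like `Good.StarRes.StarExport`);
* `CharEqAt W l A` : the same at `F = ZMod l`, `k = k_A`, in the vocabulary `apOfModel`, for every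
  `ZMod l`-algebra structure on the residue field; `charEqAt_of_export`;
* **`frob_charEq`** : `l` good for `W : WeierstrassCurve ℤ`, `A ∣ l`, `φ` a Frobenius element at `A`,
  `m` prime to `l`, `m • P = 0` : `φ • φ • P + l • P = a_l(W) • (φ • P)` in `E(ℚ̄)` (transport by the
  reduction map `Good.Eigen.redM`: additive, injective and Frobenius-compatible on `E(ℚ̄)[m]`).
-/

set_option autoImplicit false
set_option linter.unusedSectionVars false
set_option linter.style.haveILetI false

open WeierstrassCurve WeierstrassCurve.Affine IsLocalRing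

namespace Fermat.Agent.SW.K4.CharEq

open Fermat.Agent.LR.RedFrob Fermat.Agent.EC.Good

local notation "Qb" => AlgebraicClosure ℚ

/-- **(K4-a) Cayley–Hamilton for the Frobenius endomorphism** of an elliptic curve over a finite
field, on the points over an algebraically closed extension; universe `0`. -/
def FrobCharEq : Prop :=
  ∀ (F k : Type) [Field F] [Fintype F] [Field k] [Algebra F k] [IsAlgClosed k] [DecidableEq k]
    (W : WeierstrassCurve F), (W.map (algebraMap F k)).Δ ≠ 0 → ∀ Q : (W.toAffine⁄k).Point,
    frobPt F k W (frobPt F k W Q) + (Fintype.card F : ℤ) • Q =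
      ((Fintype.card F : ℤ) + 1 - Nat.card W.toAffine.Point) • frobPt F k W Q

variable [DecidableEq Qb]

/-- Cayley–Hamilton at the place `A` : the reduction of `W` at `l`, over the residue field of `A`
(for every `ZMod l`-algebra structure on it). -/
def CharEqAt (W : WeierstrassCurve ℤ) (l : ℕ) (A : ValuationSubring Qb) : Prop :=
  ∀ [Fact l.Prime] [Algebra (ZMod l) (ResidueField A)] [DecidableEq (ResidueField A)]
    (Q : ((W.reductionMod l).toAffine⁄(ResidueField A)).Point),
    frobPt (ZMod l) (ResidueField A) (W.reductionMod l)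
        (frobPt (ZMod l) (ResidueField A) (W.reductionMod l) Q) + (l : ℤ) • Q =
      W.apOfModel l • frobPt (ZMod l) (ResidueField A) (W.reductionMod l) Q

variable (W : WeierstrassCurve ℤ) {l : ℕ} (hl : l.Prime) (hgood : W.IsGoodPrimeFor l)
  (A : ValuationSubring Qb) (hA : A.LiesOverPrime l) (φ : Qb ≃ₐ[ℚ] Qb)
  (hφ : A.IsFrobeniusAt φ l)

include hl hgood hA in
omit [DecidableEq Qb] in
/-- `CharEqAt` from the finite-field export -/
theorem charEqAt_of_export (hexport : FrobCharEq) : CharEqAt W l A := by
  intro _ _ _ Q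
  haveI : IsAlgClosed (ResidueField A) := Fermat.Agent.Val.residueField_isAlgClosed A
  have hΔ := Main.Δ_ne_zero W hl hgood A hA
  have h := hexport (ZMod l) (ResidueField A) (W.reductionMod l) hΔ Q
  rw [ZMod.card l] at h
  rw [h, apOfModel_eq W]

include hl hgood hA hφ in
/-- **(K4-b) Cayley–Hamilton for a Frobenius element on the prime-to-`l` torsion of `E(ℚ̄)`.** -/
theorem frob_charEq (hCE : CharEqAt W l A) {m : ℕ} (hm : m.Coprime l)
    {P : ((W.map (Int.castRingHom ℚ))⁄Qb).Point} (hP : m • P = 0) :
    φ • φ • P + (l : ℤ) • P = W.apOfModel l • (φ • P) := by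
  classical
  haveI : Fact l.Prime := ⟨hl⟩
  haveI := charP_residueField A hl hA
  letI := ZMod.algebra (ResidueField A) l
  have hc := Main.frobCompat W A φ hφ
  have hφP : m • (φ • P) = 0 := Eigen.nsmul_smul_eq_zero W φ hP
  have hφφP : m • (φ • φ • P) = 0 := Eigen.nsmul_smul_eq_zero W φ hφP
  have hlP : m • ((l : ℤ) • P) = 0 := by rw [smul_comm, hP, zsmul_zero]
  have haφP : m • (W.apOfModel l • (φ • P)) = 0 := by rw [smul_comm, hφP, zsmul_zero]
  have hsum : m • (φ • φ • P + (l : ℤ) • P) = 0 := by rw [nsmul_add, hφφP, hlP, add_zero]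
  apply Eigen.redM_inj W hl hgood A hA hm hsum haφP
  rw [Eigen.redM_add W hl hgood A hA hm hφφP hlP, Eigen.redM_zsmul W hl hgood A hA hm hP,
    Eigen.redM_zsmul W hl hgood A hA hm hφP, Eigen.redM_frob W hl hgood A hA φ hc hm hφP,
    Eigen.redM_frob W hl hgood A hA φ hc hm hP]
  exact hCE _

end Fermat.Agent.SW.K4.CharEq
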