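import Mathlib
import Fermat.Agent.SW.K4.CharEq
import Fermat.Agent.S54.FrobExists
import Fermat.Agent.EC.Tor.Main

/-!
# MOONSHOT S52 (#1435), block K4 (congruence), part 2: a Galois-equivariant isomorphism of the
`lam`-torsion forces `a_l(W') ≡ a_l(W) mod lam`

`W, W' : WeierstrassCurve ℤ`, `lam` a prime, `e : E(ℚ̄) → E'(ℚ̄)` additive, injective and
`G_ℚ`-equivariant ON THE `lam`-TORSION. For every prime `l ≠ lam` good for both:
`lam ∣ a_l(W') - a_l(W)`.

Proof: `φ` a Frobenius element at a place `A ∣ l`, `P ∈ E[lam]` of exact order `lam` (block TOR).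
Cayley–Hamilton (`CharEq.frob_charEq`) for `W` at `P`, transported by `e`, and for `W'` at `e P`:
`a • φ(eP) = φ²(eP) + l • eP = a' • φ(eP)`, so `(a' - a)` kills `φ (e P)`, hence `e P`, hence `P`.
No case distinction on the shape of Frobenius.
-/

set_option autoImplicit false
set_option linter.unusedSectionVars false

open WeierstrassCurve WeierstrassCurve.Affine

namespace Fermat.Agent.SW.K4.Congr

open Fermat.Agent.SW.K4.CharEq

local notation "Qb" => AlgebraicClosure ℚ
local notation "GQ" => (AlgebraicClosure ℚ ≃ₐ[ℚ] AlgebraicClosure ℚ)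

variable [DecidableEq Qb]

/-- `E(ℚ̄)` for a Weierstrass curve over `ℤ` -/
abbrev EPt (W : WeierstrassCurve ℤ) : Type := ((W.map (Int.castRingHom ℚ))⁄Qb).Point

section MapLemmas

variable {W W' : WeierstrassCurve ℤ} {n : ℕ} (e : EPt W → EPt W')
  (he_add : ∀ P Q : EPt W, n • P = 0 → n • Q = 0 → e (P + Q) = e P + e Q)

include he_add

theorem map_zero' : e 0 = 0 := by
  have h := he_add 0 0 (nsmul_zero n) (nsmul_zero n)
  rw [add_zero] at h
  exact left_eq_add.mp h

theorem map_neg' {P : EPt W} (hP : n • P = 0) : e (-P) = -e P := by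
  have hnP : n • (-P) = 0 := by rw [neg_nsmul, hP, neg_zero]
  have h := he_add P (-P) hP hnP
  rw [add_neg_cancel, map_zero' e he_add] at h
  exact (neg_eq_of_add_eq_zero_right h.symm).symm

theorem map_nsmul' {P : EPt W} (hP : n • P = 0) (k : ℕ) : e (k • P) = k • e P := by
  induction k with
  | zero => rw [zero_nsmul, zero_nsmul]; exact map_zero' e he_add
  | succ k ih =>
    have hkP : n • (k • P) = 0 := by rw [smul_comm, hP, nsmul_zero]
    rw [succ_nsmul, succ_nsmul, he_add _ _ hkP hP, ih]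

theorem map_zsmul' {P : EPt W} (hP : n • P = 0) (k : ℤ) : e (k • P) = k • e P := by
  obtain ⟨k, rfl | rfl⟩ := k.eq_nat_or_neg
  · rw [natCast_zsmul, natCast_zsmul]
    exact map_nsmul' e he_add hP k
  · have hkP : n • (k • P) = 0 := by rw [smul_comm, hP, nsmul_zero]
    rw [neg_zsmul, neg_zsmul, natCast_zsmul, natCast_zsmul, map_neg' e he_add hkP,
      map_nsmul' e he_add hP k]

end MapLemmas

/-- **(K4-c) The congruence of the traces of Frobenius from a Galois-equivariant embedding of the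
`lam`-torsion.** -/
theorem dvd_sub_of_torsion_map (W W' : WeierstrassCurve ℤ) (hΔ : W.Δ ≠ 0) {lam : ℕ}
    (hlam : lam.Prime) (e : EPt W → EPt W')
    (he_add : ∀ P Q : EPt W, lam • P = 0 → lam • Q = 0 → e (P + Q) = e P + e Q)
    (he_tors : ∀ P : EPt W, lam • P = 0 → lam • e P = 0)
    (he_inj : ∀ P : EPt W, lam • P = 0 → e P = 0 → P = 0)
    (he_gal : ∀ (σ : GQ) (P : EPt W), lam • P = 0 → e (σ • P) = σ • e P)
    {l : ℕ} (hl : l.Prime) (hne : l ≠ lam) (hg : W.IsGoodPrimeFor l)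
    (hg' : W'.IsGoodPrimeFor l)
    (hCE : ∀ A : ValuationSubring Qb, A.LiesOverPrime l → CharEqAt W l A)
    (hCE' : ∀ A : ValuationSubring Qb, A.LiesOverPrime l → CharEqAt W' l A) :
    (lam : ℤ) ∣ W'.apOfModel l - W.apOfModel l := by
  obtain ⟨A, hA, φ, hφ⟩ := Fermat.Agent.S54.FrobExists.exists_isFrobeniusAt l hl
  have hm : lam.Coprime l := (Nat.coprime_primes hlam hl).mpr hne.symm
  -- a point of exact order `lam`
  have hΔQ : ((W.map (Int.castRingHom ℚ)).toAffine⁄Qb).Δ ≠ 0 := by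
    show ((W.map (Int.castRingHom ℚ)).map (algebraMap ℚ Qb)).Δ ≠ 0
    rw [WeierstrassCurve.map_Δ, WeierstrassCurve.map_Δ]
    simpa using hΔ
  have hlamQb : ((lam : ℕ) : Qb) ≠ 0 := Nat.cast_ne_zero.mpr hlam.ne_zero
  obtain ⟨P, hP⟩ := Fermat.Agent.EC.Tor.Main.exists_addOrderOf_eq_prime_pow
    ((W.map (Int.castRingHom ℚ)).toAffine⁄Qb) hΔQ hlam hlamQb 1
  rw [pow_one] at hP
  have hPt : lam • P = 0 := by rw [← hP]; exact addOrderOf_nsmul_eq_zero P
  have hφP : lam • (φ • P) = 0 := Fermat.Agent.EC.Good.Eigen.nsmul_smul_eq_zero W φ hPt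
  have hφφP : lam • (φ • φ • P) = 0 := Fermat.Agent.EC.Good.Eigen.nsmul_smul_eq_zero W φ hφP
  have hlP : lam • ((l : ℤ) • P) = 0 := by rw [smul_comm, hPt, zsmul_zero]
  -- Cayley–Hamilton for `W` at `P`, transported by `e`
  have h1 := frob_charEq W hl hg A hA φ hφ (hCE A hA) hm hPt
  have h1' : φ • φ • e P + (l : ℤ) • e P = W.apOfModel l • (φ • e P) := by
    have := congrArg e h1
    rwa [he_add _ _ hφφP hlP, map_zsmul' e he_add hPt, map_zsmul' e he_add hφP,
      he_gal φ _ hφP, he_gal φ _ hPt] at this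
  -- Cayley–Hamilton for `W'` at `e P`
  have h2 := frob_charEq W' hl hg' A hA φ hφ (hCE' A hA) hm (he_tors P hPt)
  -- `(a' - a)` kills `φ • e P`
  have h3 : (W'.apOfModel l - W.apOfModel l) • (φ • e P) = 0 := by
    rw [sub_zsmul, ← h2, ← h1']
    exact sub_self _
  have h4 : (W'.apOfModel l - W.apOfModel l) • e P = 0 := by
    rw [← WeierstrassCurve.Affine.Point.algEquiv_smul_zsmul] at h3
    exact (smul_eq_zero_iff_eq φ).mp h3
  have h5 : (W'.apOfModel l - W.apOfModel l) • P = 0 := by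
    have hkP : lam • ((W'.apOfModel l - W.apOfModel l) • P) = 0 := by
      rw [smul_comm, hPt, zsmul_zero]
    apply he_inj _ hkP
    rw [map_zsmul' e he_add hPt]
    exact h4
  rw [← hP]
  exact (addOrderOf_dvd_iff_zsmul_eq_zero).mpr h5

end Fermat.Agent.SW.K4.Congr
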