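import Mathlib
import Fermat.Agent.SW.Contracts
import Fermat.Agent.SW.K4.Congr
import Fermat.Agent.LR.VarChangePoint

/-!
# MOONSHOT S52 (#1435), block K4 (congruence), part 3: the contracts `CongOut` and `CongVC`

* `dvd_sub_of_cong` : `Cong lam (ratW W₁) (ratW W₂)` (vocabulary of `SW/Contracts`), `lam` prime,
  `l ≠ lam` a prime good for both : `lam ∣ a_l(W₂) - a_l(W₁)`, from the finite-field
  Cayley–Hamilton export `CharEq.FrobCharEq` (block K4-a);
* `congOut : FrobCharEq → Contracts.CongOut`;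
* `congVC : Contracts.CongVC` (unconditional; `LR/VarChangePoint.torsionEquiv`).
-/

set_option autoImplicit false

open WeierstrassCurve WeierstrassCurve.Affine

namespace Fermat.Agent.SW.K4.Out

open Fermat.Agent.SW.Contracts Fermat.Agent.SW.K4.CharEq Fermat.Agent.SW.K4.Congr

/-- the extension by zero of a map on the `n`-torsion -/
noncomputable def extendTors {W₁ W₂ : WeierstrassCurve ℤ} (n : ℕ)
    (φ : Submodule.torsionBy ℤ ((ratW W₁).toAffine⁄Qb).Point n →
      Submodule.torsionBy ℤ ((ratW W₂).toAffine⁄Qb).Point n) : EPt W₁ → EPt W₂ := by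
  classical
  exact fun P => if h : n • P = 0 then
    ((φ ⟨P, (Submodule.mem_torsionBy_iff _ _).mpr (by rw [natCast_zsmul]; exact h)⟩ :
      Submodule.torsionBy ℤ ((ratW W₂).toAffine⁄Qb).Point n) : EPt W₂) else 0

theorem extendTors_of_tors {W₁ W₂ : WeierstrassCurve ℤ} (n : ℕ)
    (φ : Submodule.torsionBy ℤ ((ratW W₁).toAffine⁄Qb).Point n →
      Submodule.torsionBy ℤ ((ratW W₂).toAffine⁄Qb).Point n) {P : EPt W₁} (h : n • P = 0) :
    extendTors n φ P =
      ((φ ⟨P, (Submodule.mem_torsionBy_iff _ _).mpr (by rw [natCast_zsmul]; exact h)⟩ :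
        Submodule.torsionBy ℤ ((ratW W₂).toAffine⁄Qb).Point n) : EPt W₂) := by
  unfold extendTors
  exact dif_pos h

/-- **K4 in the vocabulary of `SW/Contracts`.** -/
theorem dvd_sub_of_cong {W₁ W₂ : WeierstrassCurve ℤ} (hΔ₁ : W₁.Δ ≠ 0) {lam : ℕ}
    (hlam : lam.Prime) (hcong : Cong lam (ratW W₁) (ratW W₂)) {l : ℕ} (hl : l.Prime)
    (hne : l ≠ lam) (hg₁ : W₁.IsGoodPrimeFor l) (hg₂ : W₂.IsGoodPrimeFor l)
    (hexport : FrobCharEq) : (lam : ℤ) ∣ W₂.apOfModel l - W₁.apOfModel l := by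
  obtain ⟨φ, hφ⟩ := hcong
  have hmem : ∀ {W : WeierstrassCurve ℤ} {P : EPt W} (h : lam • P = 0),
      P ∈ Submodule.torsionBy ℤ ((ratW W).toAffine⁄Qb).Point lam := fun h =>
    (Submodule.mem_torsionBy_iff _ _).mpr (by rw [natCast_zsmul]; exact h)
  have hmem' : ∀ {W : WeierstrassCurve ℤ}
      (P : Submodule.torsionBy ℤ ((ratW W).toAffine⁄Qb).Point lam), lam • (P : EPt W) = 0 :=
    fun P => by
      have := (Submodule.mem_torsionBy_iff _ _).mp P.2
      rwa [natCast_zsmul] at this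
  refine dvd_sub_of_torsion_map W₁ W₂ hΔ₁ hlam (extendTors lam φ) ?_ ?_ ?_ ?_ hl hne hg₁ hg₂
    (fun A hA => charEqAt_of_export W₁ hl hg₁ A hA hexport)
    (fun A hA => charEqAt_of_export W₂ hl hg₂ A hA hexport)
  · intro P Q hP hQ
    have hPQ : lam • (P + Q) = 0 := by rw [nsmul_add, hP, hQ, add_zero]
    rw [extendTors_of_tors lam φ hP, extendTors_of_tors lam φ hQ, extendTors_of_tors lam φ hPQ]
    have : (⟨P + Q, hmem hPQ⟩ : Submodule.torsionBy ℤ ((ratW W₁).toAffine⁄Qb).Point lam) =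
        ⟨P, hmem hP⟩ + ⟨Q, hmem hQ⟩ := rfl
    rw [this, map_add]
    rfl
  · intro P hP
    rw [extendTors_of_tors lam φ hP]
    exact hmem' _
  · intro P hP h0
    rw [extendTors_of_tors lam φ hP] at h0
    have h1 : φ ⟨P, hmem hP⟩ = 0 := Subtype.ext h0
    have h2 := (map_eq_zero_iff φ φ.injective).mp h1
    exact congrArg Subtype.val h2
  · intro σ P hP
    have hσP : lam • (σ • P) = 0 := Fermat.Agent.EC.Good.Eigen.nsmul_smul_eq_zero W₁ σ hP
    rw [extendTors_of_tors lam φ hP, extendTors_of_tors lam φ hσP]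
    have : (⟨σ • P, hmem hσP⟩ : Submodule.torsionBy ℤ ((ratW W₁).toAffine⁄Qb).Point lam) =
        σ • ⟨P, hmem hP⟩ := rfl
    rw [this, hφ]
    rfl

/-- **K4: the contract `CongOut`** from the finite-field Cayley–Hamilton export. -/
theorem congOut (hexport : FrobCharEq) : CongOut := by
  intro W₁ W₂ _ hΔ₂ hcong ℓ hℓ hg₂ hg₁ hℓ5
  obtain ⟨φ, hφ⟩ := hcong
  have hcong' : Cong 5 (ratW W₂) (ratW W₁) := ⟨φ.symm, fun σ P => by
    apply φ.injective
    rw [hφ, AddEquiv.apply_symm_apply, AddEquiv.apply_symm_apply]⟩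
  have := dvd_sub_of_cong hΔ₂ (by norm_num : Nat.Prime 5) hcong' hℓ hℓ5 hg₂ hg₁ hexport
  exact_mod_cast this

/-- **The contract `CongVC`** : a variable change over `ℚ` identifies the `n`-torsion Galois
modules. -/
theorem congVC : CongVC := by
  intro E₁ E₂ C _ hC n
  subst hC
  exact ⟨Fermat.Agent.LR.VarChangePoint.torsionEquiv (K := Qb) E₁.toAffine C n,
    fun σ P => Fermat.Agent.LR.VarChangePoint.torsionEquiv_smul (S := ℚ) E₁.toAffine C n σ P⟩

end Fermat.Agent.SW.K4.Out
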