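import Mathlib
import Fermat.Agent.SW.K4.Out
import Fermat.Agent.SW.K4a.Main

/-!
# MOONSHOT S52 (#1435), block K4 (congruence): DONE

`frobCharEq : CharEq.FrobCharEq` from block K4-a (`SW/K4a/Main.frob_charEq`, helper7), hence the
contract `congOut : Contracts.CongOut` unconditionally.
-/

set_option autoImplicit false

open WeierstrassCurve WeierstrassCurve.Affine

namespace Fermat.Agent.SW.K4.Done

open Fermat.Agent.SW.Contracts

/-- the finite-field Cayley–Hamilton export in the shape of `K4/CharEq` -/
theorem frobCharEq : Fermat.Agent.SW.K4.CharEq.FrobCharEq := by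
  intro F k _ _ _ _ _ _ W hΔ Q
  have h := Fermat.Agent.SW.K4a.Main.frob_charEq F k W hΔ Q
  rw [sub_add_eq_add_sub, sub_eq_zero] at h
  exact h

/-- **K4 : the contract `CongOut`.** -/
theorem congOut : CongOut := Fermat.Agent.SW.K4.Out.congOut frobCharEq

/-- the contract `CongVC` (re-export) -/
theorem congVC : CongVC := Fermat.Agent.SW.K4.Out.congVC

end Fermat.Agent.SW.K4.Done
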