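import Mathlib
import Fermat.Agent.SW.Contracts

/-!
# MOONSHOT S52 (#1435): the contract `PsiThreeVC`

Transport of the rational roots of the `3`-division polynomial along a variable change:
`psi_3(E)(u² x + r) = u⁸ · psi_3(C • E)(x)`.
-/

set_option autoImplicit false

open WeierstrassCurve WeierstrassCurve.Affine

namespace Fermat.Agent.SW.K4.PsiVC

open Fermat.Agent.SW.Contracts Fermat.Agent.S51.Three

/-- `psi_3(E)(u² x + r) = u⁸ · psi_3(C • E)(x)` -/
theorem psi3_variableChange {F : Type*} [Field F] (E : WeierstrassCurve F) (C : VariableChange F)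
    (x : F) :
    psi3 E.toAffine ((C.u : F) ^ 2 * x + C.r) = (C.u : F) ^ 8 * psi3 (C • E).toAffine x := by
  have hu : (C.u : F) ≠ 0 := C.u.ne_zero
  simp only [psi3, WeierstrassCurve.toAffine, variableChange_b₂, variableChange_b₄,
    variableChange_b₆, variableChange_b₈, Units.val_inv_eq_inv_val]
  field_simp
  ring

/-- **The contract `PsiThreeVC`.** -/
theorem psiThreeVC : PsiThreeVC := by
  intro E₁ E₂ C hC ⟨x, hx⟩
  subst hC
  exact ⟨(C.u : ℚ) ^ 2 * x + C.r, by rw [psi3_variableChange, hx, mul_zero]⟩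

end Fermat.Agent.SW.K4.PsiVC
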