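import Mathlib
import Fermat.Agent.SW.K4.Out

/-!
# MOONSHOT S52 (#1435): the short Weierstrass form as a variable change

Over a field in which `6` is invertible every Weierstrass curve is a variable change of
`y² = x³ - 27 c₄ x - 54 c₆` (`u = 1/6`, `r = -b₂/12`, `s = -a₁/2`, `t = -(a₃ + r a₁)/2`).
Consequence in the vocabulary of `SW/Contracts` : `Cong n (shortW (-27 c₄) (-54 c₆)) (ratW W)`.
-/

set_option autoImplicit false

open WeierstrassCurve WeierstrassCurve.Affine

namespace Fermat.Agent.SW.K4.ShortForm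

open Fermat.Agent.SW.Contracts

/-- the variable change to the short form -/
def shortVC {F : Type*} [Field F] (h6 : (6 : F) ≠ 0) (E : WeierstrassCurve F) : VariableChange F where
  u := (Units.mk0 (6 : F) h6)⁻¹
  r := -E.b₂ / 12
  s := -E.a₁ / 2
  t := -(E.a₃ + (-E.b₂ / 12) * E.a₁) / 2

theorem shortVC_smul {F : Type*} [Field F] (h6 : (6 : F) ≠ 0) (E : WeierstrassCurve F) :
    shortVC h6 E • E = ⟨0, 0, 0, -27 * E.c₄, -54 * E.c₆⟩ := by
  have h2 : (2 : F) ≠ 0 := fun h => h6 (by
    have : (6 : F) = 2 * 3 := by norm_num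
    rw [this, h, zero_mul])
  have h3 : (3 : F) ≠ 0 := fun h => h6 (by
    have : (6 : F) = 2 * 3 := by norm_num
    rw [this, h, mul_zero])
  have h12 : (12 : F) ≠ 0 := by
    have : (12 : F) = 2 * 2 * 3 := by norm_num
    rw [this]
    exact mul_ne_zero (mul_ne_zero h2 h2) h3
  ext
  · simp only [variableChange_a₁, shortVC, inv_inv, Units.val_mk0]
    field_simp
    ring
  · simp only [variableChange_a₂, shortVC, inv_inv, Units.val_mk0, WeierstrassCurve.b₂]
    field_simp
    ring
  · simp only [variableChange_a₃, shortVC, inv_inv, Units.val_mk0, WeierstrassCurve.b₂]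
    field_simp
    ring
  · simp only [variableChange_a₄, shortVC, inv_inv, Units.val_mk0, WeierstrassCurve.b₂,
      WeierstrassCurve.b₄, WeierstrassCurve.c₄]
    field_simp
    ring
  · simp only [variableChange_a₆, shortVC, inv_inv, Units.val_mk0, WeierstrassCurve.b₂,
      WeierstrassCurve.b₄, WeierstrassCurve.b₆, WeierstrassCurve.c₆]
    field_simp
    ring

/-- **The short form of a rational Weierstrass curve.** -/
theorem exists_variableChange_short (E : WeierstrassCurve ℚ) :
    ∃ C : VariableChange ℚ, C • E = shortW (-27 * E.c₄) (-54 * E.c₆) :=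
  ⟨shortVC (by norm_num) E, shortVC_smul _ E⟩

/-- the short form of the rational model of an integral Weierstrass curve -/
theorem exists_variableChange_short_ratW (W : WeierstrassCurve ℤ) :
    ∃ C : VariableChange ℚ, C • ratW W = shortW (-27 * (W.c₄ : ℚ)) (-54 * (W.c₆ : ℚ)) := by
  obtain ⟨C, hC⟩ := exists_variableChange_short (ratW W)
  refine ⟨C, ?_⟩
  rw [hC]
  simp [ratW, WeierstrassCurve.map_c₄, WeierstrassCurve.map_c₆]

/-- **the `n`-torsion Galois module of the short form is that of `W`.** -/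
theorem cong_short (W : WeierstrassCurve ℤ) (hΔ : W.Δ ≠ 0) (n : ℕ) :
    Cong n (shortW (-27 * (W.c₄ : ℚ)) (-54 * (W.c₆ : ℚ))) (ratW W) := by
  obtain ⟨C, hC⟩ := exists_variableChange_short_ratW W
  have hΔ' : (ratW W).Δ ≠ 0 := by
    rw [ratW, WeierstrassCurve.map_Δ]
    simpa using hΔ
  exact Fermat.Agent.SW.K4.Out.congVC _ _ C hΔ' hC n

end Fermat.Agent.SW.K4.ShortForm
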